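import Mathlib

/-!
# A2 / MOD leaf L8 (helper398) — generic conversions (Mathlib only)

* `finrank_adjoin_simple_eq_relfinrank`: `[F : k(x)]` computed inside `F` equals the relative
  degree `[F : k(x)]` computed inside the ambient field `L`;
* linear independence of the first `n` powers of `a` versus the degree of `a`.
-/

set_option autoImplicit false

noncomputable section

namespace Fermat.Agent.A2.Mod.H398

open IntermediateField Polynomial

section Conv

variable {k L : Type*} [Field k] [Field L] [Algebra k L]

theorem map_val_adjoin_simple (F : IntermediateField k L) (x : F) :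
    (k⟮x⟯).map F.val = k⟮(x : L)⟯ := by
  rw [IntermediateField.adjoin_map, Set.image_singleton]
  rfl

/-- `[F : k(x)]`, computed in `F`, is the relative degree computed in `L`. -/
theorem finrank_adjoin_simple_eq_relfinrank (F : IntermediateField k L) (x : F) :
    Module.finrank k⟮x⟯ F = (k⟮(x : L)⟯).relfinrank F := by
  rw [← relfinrank_top_right, ← relfinrank_map_map (k⟮x⟯) ⊤ F.val, map_val_adjoin_simple,
    ← AlgHom.fieldRange_eq_map, fieldRange_val]

theorem finiteDimensional_adjoin_simple_of_relfinrank_ne_zero (F : IntermediateField k L) (x : F)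
    (h : (k⟮(x : L)⟯).relfinrank F ≠ 0) : FiniteDimensional k⟮x⟯ F := by
  rw [← finrank_adjoin_simple_eq_relfinrank] at h
  exact Module.finite_of_finrank_pos (Nat.pos_of_ne_zero h)

end Conv

section Pow

variable {F L : Type*} [Field F] [Field L] [Algebra F L]

theorem linearIndependent_pow_of_le {a : L} {n : ℕ}
    (hn : n ≤ (minpoly F a).natDegree) :
    LinearIndependent F (fun i : Fin n => a ^ (i : ℕ)) := by
  have h := linearIndependent_pow (K := F) a
  exact h.comp (Fin.castLE hn) (Fin.castLE_injective hn)

theorem le_natDegree_of_linearIndependent_pow {a : L} (ha : IsIntegral F a) {n : ℕ}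
    (h : LinearIndependent F (fun i : Fin n => a ^ (i : ℕ))) :
    n ≤ (minpoly F a).natDegree := by
  by_contra hlt
  rw [not_le] at hlt
  rw [Fintype.linearIndependent_iff] at h
  have h1 : ∑ i : Fin n, (minpoly F a).coeff i • a ^ (i : ℕ) = 0 := by
    rw [Fin.sum_univ_eq_sum_range (fun i => (minpoly F a).coeff i • a ^ i) n,
      ← aeval_eq_sum_range' hlt, minpoly.aeval]
  have h2 := h (fun i => (minpoly F a).coeff i) h1 ⟨(minpoly F a).natDegree, hlt⟩
  have h3 : (minpoly F a).leadingCoeff = 0 := h2
  rw [(minpoly.monic ha).leadingCoeff] at h3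
  exact one_ne_zero h3

theorem isIntegral_of_not_linearIndependent_pow {a : L} {n : ℕ}
    (h : ¬ LinearIndependent F (fun i : Fin n => a ^ (i : ℕ))) : IsIntegral F a := by
  by_contra hint
  apply h
  have htr : Transcendental F a := fun halg => hint halg.isIntegral
  rw [Fintype.linearIndependent_iff]
  intro g hg i
  have h1 : aeval a (∑ i : Fin n, C (g i) * X ^ (i : ℕ)) = 0 := by
    rw [map_sum, ← hg]
    refine Finset.sum_congr rfl fun i _ => ?_
    rw [map_mul, aeval_C, map_pow, aeval_X, Algebra.smul_def]
  have h2 := (transcendental_iff.mp htr) _ h1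
  have h3 := congrArg (fun p : F[X] => p.coeff i) h2
  simp only [finsetSum_coeff, coeff_C_mul, coeff_X_pow, coeff_zero] at h3
  rw [Finset.sum_eq_single i] at h3
  · simpa using h3
  · intro j _ hji
    rw [if_neg, mul_zero]
    intro h4
    exact hji (Fin.ext h4.symm)
  · intro hi
    exact absurd (Finset.mem_univ i) hi

end Pow

end Fermat.Agent.A2.Mod.H398

end
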