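import Mathlib
import Fermat.Prelude.Def_ModularCurve_LaurentCoeff

/-!
# A2 / MOD leaf L8 (helper398) — linear disjointness of `E((t))` and `K` over `E`

For a field extension `K / E`, `ι = coeffMap : E((t)) → K((t))`, `x ∈ E((t))`:
a family `b` of Laurent series over `E` is linearly independent over `E(x)` **iff** `ι ∘ b` is
linearly independent over `K(ι x)`.  (Proof: apply `E`-linear functionals `K → E` coefficientwise.)
-/

set_option autoImplicit false

noncomputable section

namespace Fermat.Agent.A2.Mod.H398

open ModularCurve HahnSeries Polynomial IntermediateField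

section LinDisj

variable {E K : Type*} [Field E] [Field K] [Algebra E K]

/-- The coefficient embedding `E((t)) → K((t))`. -/
abbrev iotaL (E K : Type*) [Field E] [Field K] [Algebra E K] :
    LaurentSeries E →+* LaurentSeries K :=
  coeffMap (algebraMap E K)

theorem iotaL_injective : Function.Injective (iotaL E K) :=
  (iotaL E K).injective

theorem iotaL_algebraMap (c : E) :
    iotaL E K (algebraMap E (LaurentSeries E) c) =
      algebraMap K (LaurentSeries K) (algebraMap E K c) := by
  rw [algebraMap_laurentSeries_eq_single, algebraMap_laurentSeries_eq_single]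
  exact coeffMap_single _ _ _

theorem iotaL_comp_algebraMap :
    (iotaL E K).comp (algebraMap E (LaurentSeries E)) =
      (algebraMap K (LaurentSeries K)).comp (algebraMap E K) :=
  RingHom.ext fun c => iotaL_algebraMap c

theorem iotaL_aeval (x : LaurentSeries E) (r : E[X]) :
    iotaL E K (aeval x r) = aeval (iotaL E K x) (r.map (algebraMap E K)) := by
  rw [aeval_def, aeval_def, Polynomial.hom_eval₂, iotaL_comp_algebraMap, Polynomial.eval₂_map]

theorem iotaL_mem_adjoin_simple {x c : LaurentSeries E} (hc : c ∈ E⟮x⟯) :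
    iotaL E K c ∈ K⟮iotaL E K x⟯ := by
  obtain ⟨r, s, rfl⟩ := (IntermediateField.mem_adjoin_simple_iff E c).mp hc
  rw [map_div₀, iotaL_aeval, iotaL_aeval]
  exact (IntermediateField.mem_adjoin_simple_iff K _).mpr ⟨_, _, rfl⟩

/-- Apply an `E`-linear functional `K → E` coefficientwise. -/
def coeffLin (φ : K →ₗ[E] E) (y : LaurentSeries K) : LaurentSeries E := y.map φ

@[simp]
theorem coeffLin_coeff (φ : K →ₗ[E] E) (y : LaurentSeries K) (n : ℤ) :
    (coeffLin φ y).coeff n = φ (y.coeff n) := rfl

theorem coeffLin_zero (φ : K →ₗ[E] E) : coeffLin φ 0 = 0 := by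
  ext n; simp

theorem coeffLin_add (φ : K →ₗ[E] E) (y z : LaurentSeries K) :
    coeffLin φ (y + z) = coeffLin φ y + coeffLin φ z := by
  ext n; simp

theorem coeffLin_sum (φ : K →ₗ[E] E) {ι : Type*} (s : Finset ι) (f : ι → LaurentSeries K) :
    coeffLin φ (∑ i ∈ s, f i) = ∑ i ∈ s, coeffLin φ (f i) := by
  classical
  induction s using Finset.induction_on with
  | empty => simp [coeffLin_zero]
  | insert a s ha ih => rw [Finset.sum_insert ha, Finset.sum_insert ha, coeffLin_add, ih]

theorem coeffLin_support_subset (φ : K →ₗ[E] E) (y : LaurentSeries K) :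
    (coeffLin φ y).support ⊆ y.support := by
  intro n hn
  rw [HahnSeries.mem_support] at hn ⊢
  intro h
  apply hn
  rw [coeffLin_coeff, h, map_zero]

theorem iotaL_support_subset (a : LaurentSeries E) :
    (iotaL E K a).support ⊆ a.support := by
  intro n hn
  rw [HahnSeries.mem_support] at hn ⊢
  intro h
  apply hn
  rw [coeffMap_coeff, h, map_zero]

/-- **Semilinearity**: `π_φ (ι a · y) = a · π_φ y`. -/
theorem coeffLin_iotaL_mul (φ : K →ₗ[E] E) (a : LaurentSeries E) (y : LaurentSeries K) :
    coeffLin φ (iotaL E K a * y) = a * coeffLin φ y := by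
  ext n
  rw [coeffLin_coeff, HahnSeries.coeff_mul_left' a.isPWO_support (iotaL_support_subset a),
    HahnSeries.coeff_mul_right' y.isPWO_support (coeffLin_support_subset φ y), map_sum]
  refine Finset.sum_congr rfl fun ij _ => ?_
  rw [coeffMap_coeff, coeffLin_coeff, ← Algebra.smul_def, map_smul, smul_eq_mul]

theorem coeffLin_algebraMap (φ : K →ₗ[E] E) (κ : K) :
    coeffLin φ (algebraMap K (LaurentSeries K) κ) = algebraMap E (LaurentSeries E) (φ κ) := by
  rw [algebraMap_laurentSeries_eq_single, algebraMap_laurentSeries_eq_single]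
  ext n
  rw [coeffLin_coeff]
  by_cases h : n = 0
  · subst h
    simp
  · rw [HahnSeries.coeff_single_of_ne h, HahnSeries.coeff_single_of_ne h, map_zero]

/-- `π_φ` maps `K[ι x]` into `E[x]`. -/
theorem coeffLin_aeval_mem (φ : K →ₗ[E] E) (x : LaurentSeries E) (Q : K[X]) :
    coeffLin φ (aeval (iotaL E K x) Q) ∈ Algebra.adjoin E {x} := by
  induction Q using Polynomial.induction_on' with
  | add p q hp hq =>
    rw [map_add, coeffLin_add]
    exact add_mem hp hq
  | monomial m κ =>
    have h1 : aeval (iotaL E K x) (monomial m κ) =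
        iotaL E K (x ^ m) * algebraMap K (LaurentSeries K) κ := by
      rw [aeval_monomial, map_pow, mul_comm]
    rw [h1, coeffLin_iotaL_mul, coeffLin_algebraMap]
    exact mul_mem (pow_mem (Algebra.self_mem_adjoin_singleton E x) m)
      (Subalgebra.algebraMap_mem _ _)

/-- If all coefficientwise functionals vanish, the series vanishes. -/
theorem eq_zero_of_forall_coeffLin {y : LaurentSeries K}
    (h : ∀ φ : K →ₗ[E] E, coeffLin φ y = 0) : y = 0 := by
  ext n
  rw [HahnSeries.coeff_zero]
  refine (Module.forall_dual_apply_eq_zero_iff E (y.coeff n)).mp fun φ => ?_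
  have := congrArg (fun z => z.coeff n) (h φ)
  simpa using this

/-- **Linear disjointness, subalgebra form.** -/
theorem linearIndependent_adjoin_iotaL (x : LaurentSeries E) {n : ℕ}
    (b : Fin n → LaurentSeries E) (hb : LinearIndependent (Algebra.adjoin E {x}) b) :
    LinearIndependent (Algebra.adjoin K {iotaL E K x}) (fun i => iotaL E K (b i)) := by
  rw [Fintype.linearIndependent_iff] at hb ⊢
  intro c hc i
  have key : ∀ φ : K →ₗ[E] E, coeffLin φ (c i : LaurentSeries K) = 0 := by
    intro φ
    have hmem : ∀ i, coeffLin φ (c i : LaurentSeries K) ∈ Algebra.adjoin E {x} := by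
      intro i
      obtain ⟨Q, hQ⟩ := (Algebra.adjoin_singleton_eq_range_aeval K (iotaL E K x) ▸ (c i).2 :
        (c i : LaurentSeries K) ∈ (aeval (iotaL E K x) : K[X] →ₐ[K] LaurentSeries K).range)
      rw [← hQ]
      exact coeffLin_aeval_mem φ x Q
    have h1 : ∑ i, (⟨coeffLin φ (c i : LaurentSeries K), hmem i⟩ : Algebra.adjoin E {x}) • b i
        = 0 := by
      have h2 := congrArg (coeffLin φ) hc
      rw [coeffLin_zero, coeffLin_sum] at h2
      rw [← h2]
      refine Finset.sum_congr rfl fun i _ => ?_
      rw [Subalgebra.smul_def, smul_eq_mul, Subalgebra.smul_def, smul_eq_mul,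
        mul_comm (c i : LaurentSeries K), coeffLin_iotaL_mul, mul_comm]
    have h3 := hb _ h1 i
    exact congrArg Subtype.val h3
  exact Subtype.ext (eq_zero_of_forall_coeffLin key)

open IntermediateField.algebraAdjoinAdjoin in
/-- **Linear disjointness**: `E(x)`-independent families stay independent over `K(ι x)`. -/
theorem linearIndependent_iotaL (x : LaurentSeries E) {n : ℕ}
    (b : Fin n → LaurentSeries E) (hb : LinearIndependent E⟮x⟯ b) :
    LinearIndependent K⟮iotaL E K x⟯ (fun i => iotaL E K (b i)) := by
  rw [← LinearIndependent.iff_fractionRing (Algebra.adjoin E {x}) E⟮x⟯] at hb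
  rw [← LinearIndependent.iff_fractionRing (Algebra.adjoin K {iotaL E K x}) K⟮iotaL E K x⟯]
  exact linearIndependent_adjoin_iotaL x b hb

/-- The converse (easy) direction. -/
theorem linearIndependent_of_iotaL (x : LaurentSeries E) {n : ℕ}
    (b : Fin n → LaurentSeries E)
    (hb : LinearIndependent K⟮iotaL E K x⟯ (fun i => iotaL E K (b i))) :
    LinearIndependent E⟮x⟯ b := by
  rw [Fintype.linearIndependent_iff] at hb ⊢
  intro c hc i
  have h1 : ∑ i, (⟨iotaL E K (c i : LaurentSeries E), iotaL_mem_adjoin_simple (c i).2⟩ :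
      K⟮iotaL E K x⟯) • iotaL E K (b i) = 0 := by
    have h2 := congrArg (iotaL E K) hc
    rw [map_zero, map_sum] at h2
    rw [← h2]
    refine Finset.sum_congr rfl fun i _ => ?_
    rw [IntermediateField.smul_def, smul_eq_mul, IntermediateField.smul_def, smul_eq_mul, map_mul]
  have h3 := congrArg Subtype.val (hb _ h1 i)
  apply Subtype.ext
  apply iotaL_injective (K := K)
  rw [IntermediateField.coe_zero, map_zero]
  exact h3

theorem linearIndependent_iotaL_iff (x : LaurentSeries E) {n : ℕ}
    (b : Fin n → LaurentSeries E) :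
    LinearIndependent K⟮iotaL E K x⟯ (fun i => iotaL E K (b i)) ↔ LinearIndependent E⟮x⟯ b :=
  ⟨linearIndependent_of_iotaL x b, linearIndependent_iotaL x b⟩

end LinDisj

end Fermat.Agent.A2.Mod.H398

end
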