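import Mathlib
import Fermat.Agent.S24.FFDegree

/-!
# A2 / MOD leaf L8 (helper398) — degree of a product of two mutually integral coordinates

`K` algebraically closed of characteristic `0`, `F / K` a function field of one variable,
`y, z ∈ F` with `z` integral over `K[y]` and `y` integral over `K[z]` (so `y`, `z` have the same
poles).  Then `[F : K(y z)] = [F : K(y)] + [F : K(z)]`.
-/

set_option autoImplicit false
set_option linter.style.haveILetI false

noncomputable section

namespace Fermat.Agent.A2.Mod.H398

open AlgebraicCurve IntermediateField Polynomial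

section PoleSum

variable {K F : Type*} [Field K] [Field F] [Algebra K F]

/-- An element integral over `K[y]` is integral at every place where `y` is. -/
theorem ord_nonneg_of_isIntegral_adjoin (v : Place K F) {y z : F}
    (hzy : IsIntegral (Algebra.adjoin K {y}) z) (hy : 0 ≤ v.ord y) : 0 ≤ v.ord z := by
  have hyv : y ∈ v.toValuationSubring := (Fermat.Agent.S24.FF.mem_iff_ord_nonneg v).mpr hy
  have hle : ∀ a ∈ Algebra.adjoin K {y}, a ∈ v.toValuationSubring := by
    intro a ha
    induction ha using Algebra.adjoin_induction with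
    | mem a ha =>
      rw [Set.mem_singleton_iff] at ha
      subst ha
      exact hyv
    | algebraMap r => exact v.algebraMap_mem' r
    | add a b _ _ ha hb => exact add_mem ha hb
    | mul a b _ _ ha hb => exact mul_mem ha hb
  let f : Algebra.adjoin K {y} →+* v.toValuationSubring :=
    { toFun := fun a => ⟨a.1, hle a.1 a.2⟩
      map_one' := rfl
      map_mul' := fun _ _ => rfl
      map_zero' := rfl
      map_add' := fun _ _ => rfl }
  obtain ⟨p, hp, hpz⟩ := hzy
  have h1 : IsIntegral v.toValuationSubring z := by
    refine ⟨p.map f, hp.map f, ?_⟩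
    rw [Polynomial.eval₂_map]
    exact hpz
  obtain ⟨w, hw⟩ := IsIntegrallyClosed.isIntegral_iff.mp h1
  rw [← Fermat.Agent.S24.FF.mem_iff_ord_nonneg, ← hw]
  exact w.2

variable [IsAlgClosed K] [CharZero K]

/-- **Degree of a product of two mutually integral coordinates.** -/
theorem finrank_mul_of_mutually_integral {y z : F} (hy : Transcendental K y)
    [FiniteDimensional K⟮y⟯ F]
    (hzy : IsIntegral (Algebra.adjoin K {y}) z) (hyz : IsIntegral (Algebra.adjoin K {z}) y) :
    Transcendental K z ∧ Transcendental K (y * z) ∧ FiniteDimensional K⟮z⟯ F ∧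
      FiniteDimensional K⟮y * z⟯ F ∧
      Module.finrank K⟮y * z⟯ F = Module.finrank K⟮y⟯ F + Module.finrank K⟮z⟯ F := by
  classical
  have hy0 : y ≠ 0 := fun h => hy (h ▸ isAlgebraic_zero)
  -- `z` is transcendental
  have hz : Transcendental K z := by
    intro hz
    apply hy
    haveI : Algebra.IsIntegral K (Algebra.adjoin K {z}) :=
      Algebra.IsIntegral.adjoin (fun x hx => by
        rw [Set.mem_singleton_iff] at hx
        subst hx
        exact hz.isIntegral)
    exact (isIntegral_trans (R := K) (A := Algebra.adjoin K {z}) y hyz).isAlgebraic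
  have hz0 : z ≠ 0 := fun h => hz (h ▸ isAlgebraic_zero)
  haveI hfz : FiniteDimensional K⟮z⟯ F :=
    Fermat.Agent.S24.FF.finiteDimensional_adjoin_of_transcendental hy hz
  -- the common pole set
  have hiff : ∀ v : Place K F, v.ord z < 0 ↔ v.ord y < 0 := by
    intro v
    constructor
    · intro h
      by_contra h'
      have := ord_nonneg_of_isIntegral_adjoin v hzy (not_lt.mp h')
      omega
    · intro h
      by_contra h'
      have := ord_nonneg_of_isIntegral_adjoin v hyz (not_lt.mp h')
      omega
  have hmul : ∀ v : Place K F, v.ord (y * z) = v.ord y + v.ord z := fun v => v.ord_mul hy0 hz0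
  have hiffx : ∀ v : Place K F, v.ord (y * z) < 0 ↔ v.ord y < 0 := by
    intro v
    rw [hmul]
    constructor
    · intro h
      by_contra h'
      have h1 : ¬ v.ord z < 0 := fun h2 => h' ((hiff v).mp h2)
      omega
    · intro h
      have := (hiff v).mpr h
      omega
  set S : Finset (Place K F) := (Fermat.Agent.S24.FF.finite_setOf_ord_neg hy).toFinset with hS
  have hSy : ∀ v, v ∈ S ↔ v.ord y < 0 := fun v => by
    rw [hS, Set.Finite.mem_toFinset]; rfl
  have hsumy := Fermat.Agent.S24.FF.sum_ord_neg_eq_neg_finrank hy S hSy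
  have hsumz := Fermat.Agent.S24.FF.sum_ord_neg_eq_neg_finrank hz S
    (fun v => (hSy v).trans (hiff v).symm)
  have hposy : 0 < Module.finrank K⟮y⟯ F := Module.finrank_pos
  -- `y z` is transcendental
  have hx : Transcendental K (y * z) := by
    intro hx
    obtain ⟨c, hc⟩ := Fermat.Agent.S24.FF.mem_range_of_isAlgebraic hx
    have hne : S.Nonempty := by
      by_contra hne
      rw [Finset.not_nonempty_iff_eq_empty] at hne
      rw [hne, Finset.sum_empty] at hsumy
      have : (Module.finrank K⟮y⟯ F : ℤ) = 0 := by omega
      have : Module.finrank K⟮y⟯ F = 0 := by exact_mod_cast this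
      omega
    obtain ⟨v, hv⟩ := hne
    have h1 := (hiffx v).mpr ((hSy v).mp hv)
    rw [← hc] at h1
    have h2 := Fermat.Agent.S24.FF.ord_algebraMap v c
    omega
  haveI hfx : FiniteDimensional K⟮y * z⟯ F :=
    Fermat.Agent.S24.FF.finiteDimensional_adjoin_of_transcendental hy hx
  have hsumx := Fermat.Agent.S24.FF.sum_ord_neg_eq_neg_finrank hx S
    (fun v => (hSy v).trans (hiffx v).symm)
  refine ⟨hz, hx, hfz, hfx, ?_⟩
  have h3 : ∑ v ∈ S, v.ord (y * z) = ∑ v ∈ S, v.ord y + ∑ v ∈ S, v.ord z := by
    rw [← Finset.sum_add_distrib]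
    exact Finset.sum_congr rfl fun v _ => hmul v
  rw [hsumx, hsumy, hsumz] at h3
  omega

end PoleSum

end Fermat.Agent.A2.Mod.H398

end
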