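import Fermat.Agent.A2.Mod.H398.LaurentConst
import Fermat.Agent.A2.Mod.H398.LinDisj
import Fermat.Agent.A2.Mod.H398.PoleSum
import Fermat.Agent.A2.Mod.H398.Conv
import Fermat.Agent.S37.H988.BetaDeg

/-!
# A2 / MOD leaf L8 (helper398) — `[k(j, j_q) : k(j j_q)] = 2 (q + 1)`, core

For every field `k` of characteristic `0` (inside `k((t))`):

* `[k(j,j_q) : k(j)] = [k(j,j_q) : k(j_q)] = q + 1`, `[F_{Mq} : k(j,j_q)] = ψ(M)`  (S28 / S37 H988);
* over `ℚ̄`: `[ℚ̄(j,j_q) : ℚ̄(j j_q)] = 2 (q+1)` (poles of `j j_q`: `PoleSum`);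
* descent to any `E ⊆ K` (`LinDisj`): the degree of `j` over `E(x)` equals that over `K(x)`.
-/

set_option autoImplicit false
set_option linter.style.haveILetI false
set_option linter.unusedSectionVars false

noncomputable section

namespace Fermat.Agent.A2.Mod.H398

open ModularCurve HahnSeries Polynomial IntermediateField
open Fermat.Agent.S28 Fermat.Agent.S28.H988 Fermat.Agent.S37.H988

/-! ### Part A: the tower over any field of characteristic zero -/

section Order

variable (k : Type*) [Field k] (q : ℕ)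

/-- The coordinate `x = j · j_q` as a Laurent series. -/
def xL : LaurentSeries k := jqModC k * jd k q

theorem jqModC_ne_zero' : jqModC k ≠ 0 := by
  intro h
  have := orderTop_jq k
  rw [h, HahnSeries.orderTop_zero] at this
  exact WithTop.top_ne_coe this

theorem jd_ne_zero' {e : ℕ} (he : e ≠ 0) : jd k e ≠ 0 := by
  intro h
  have := orderTop_jd k he
  rw [h, HahnSeries.orderTop_zero] at this
  exact WithTop.top_ne_coe this

theorem order_xL {q : ℕ} (hq : q ≠ 0) : (xL k q).order = -(1 + q : ℤ) := by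
  have h1 : (jqModC k).order = -1 := by
    have := orderTop_jq k
    rw [← HahnSeries.order_eq_orderTop_of_ne_zero (jqModC_ne_zero' k)] at this
    exact_mod_cast this
  have h2 : (jd k q).order = -(q : ℤ) := by
    have := orderTop_jd k hq
    rw [← HahnSeries.order_eq_orderTop_of_ne_zero (jd_ne_zero' k hq)] at this
    exact_mod_cast this
  rw [xL, HahnSeries.order_mul (jqModC_ne_zero' k) (jd_ne_zero' k hq), h1, h2]
  ring

theorem transcendental_jqModC' : Transcendental k (jqModC k) := by
  apply laurent_transcendental_of_order_ne_zero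
  have := orderTop_jq k
  rw [← HahnSeries.order_eq_orderTop_of_ne_zero (jqModC_ne_zero' k)] at this
  have h1 : (jqModC k).order = -1 := by exact_mod_cast this
  rw [h1]
  decide

theorem transcendental_xL {q : ℕ} (hq : q ≠ 0) : Transcendental k (xL k q) := by
  apply laurent_transcendental_of_order_ne_zero
  rw [order_xL k hq]
  omega

end Order

section Level

variable (k : Type*) [Field k] [CharZero k] (q : ℕ)

theorem full_prime_eq_sup {q : ℕ} (hq : q.Prime) :
    modularFunctionFieldFullC k q = k⟮jqModC k⟯ ⊔ k⟮jd k q⟯ := by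
  have h := full_mul_eq_sup k hq one_ne_zero (by simpa using hq.one_lt.ne')
  rwa [one_mul, full_one] at h

theorem adjoin_x_sup_adjoin_j {q : ℕ} (hq : q.Prime) :
    k⟮xL k q⟯ ⊔ k⟮jqModC k⟯ = modularFunctionFieldFullC k q := by
  rw [full_prime_eq_sup k hq]
  apply le_antisymm
  · refine sup_le ?_ le_sup_left
    rw [adjoin_simple_le_iff]
    exact mul_mem (le_sup_left (a := k⟮jqModC k⟯) (mem_adjoin_simple_self k _))
      (le_sup_right (b := k⟮jd k q⟯) (mem_adjoin_simple_self k _))
  · refine sup_le le_sup_right ?_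
    rw [adjoin_simple_le_iff]
    have h1 : jd k q = xL k q * (jqModC k)⁻¹ := by
      rw [xL, mul_comm (jqModC k), mul_assoc, mul_inv_cancel₀ (jqModC_ne_zero' k), mul_one]
    rw [h1]
    exact mul_mem (le_sup_left (a := k⟮xL k q⟯) (mem_adjoin_simple_self k _))
      (inv_mem (le_sup_right (b := k⟮jqModC k⟯) (mem_adjoin_simple_self k _)))

theorem charHyp (N r : ℕ) (hr : r.Prime) (_h : r ∣ N) : (r : k) ≠ 0 :=
  Nat.cast_ne_zero.mpr hr.ne_zero

theorem relfinrank_j_full_prime {q : ℕ} (hq : q.Prime) :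
    (k⟮jqModC k⟯).relfinrank (modularFunctionFieldFullC k q) = q + 1 := by
  have h := relfinrank_full_mul_prime k 1 q one_ne_zero hq (charHyp k (1 * q))
  rw [one_mul, full_one, if_neg (by simpa using hq.one_lt.ne')] at h
  exact h

theorem map_VAlg_adjoin_j (q : ℕ) :
    (k⟮jqModC k⟯).map (VAlg k q) = k⟮jd k q⟯ := by
  rw [adjoin_map, Set.image_singleton, VAlg_apply]
  rfl

theorem relfinrank_jq_full_prime {q : ℕ} (hq : q.Prime) :
    (k⟮jd k q⟯).relfinrank (modularFunctionFieldFullC k q) = q + 1 := by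
  have h := relfinrank_map_full k hq (N := 1) one_ne_zero (by simpa using hq.one_lt.ne')
  rw [one_mul, full_one, map_VAlg_adjoin_j] at h
  exact h

theorem relfinrank_full_prime_full {q : ℕ} (hq : q.Prime) {M : ℕ} (hM : M ≠ 0)
    (hqM : ¬ q ∣ M) :
    (modularFunctionFieldFullC k q).relfinrank (modularFunctionFieldFullC k (M * q)) =
      dedekindPsi M := by
  have hMq : M * q ≠ 0 := Nat.mul_ne_zero hM hq.ne_zero
  have i1 : k⟮jqModC k⟯ ≤ modularFunctionFieldFullC k q := by
    rw [← full_one]
    exact full_mono k hq.ne_zero (one_dvd q)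
  have i2 : modularFunctionFieldFullC k q ≤ modularFunctionFieldFullC k (M * q) :=
    full_mono k hMq (Dvd.intro_left M rfl)
  have d2 : (k⟮jqModC k⟯).relfinrank (modularFunctionFieldFullC k (M * q)) =
      dedekindPsi M * (q + 1) := by
    have := relfinrank_jField_full_eq k (M * q) hMq (charHyp k (M * q))
    rw [Fermat.Agent.S28.H626.psi_mul_prime_of_not_dvd hM hq hqM] at this
    exact this.trans (mul_comm _ _)
  have h := relfinrank_mul_relfinrank i1 i2
  rw [relfinrank_j_full_prime k hq, d2, mul_comm] at h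
  exact Nat.eq_of_mul_eq_mul_right (Nat.succ_pos q) h

end Level

/-! ### Part B: the degree over an algebraically closed field (poles of `j j_q`) -/

section Bar

theorem isIntegral_adjoin_of_isRoot_PhiAt {K L : Type*} [Field K] [Field L] [Algebra K L]
    (F : IntermediateField K L) {Φ : Polynomial (Polynomial ℤ)} (hΦ : Φ.Monic) (y z : F)
    (h : (PhiAt Φ (y : L)).IsRoot (z : L)) : IsIntegral (Algebra.adjoin K {y}) z := by
  set A := Algebra.adjoin K {y} with hA
  let yA : A := ⟨y, Algebra.self_mem_adjoin_singleton K y⟩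
  refine ⟨PhiAt Φ yA, PhiAt_monic hΦ yA, ?_⟩
  have hinj : Function.Injective (algebraMap F L) := (algebraMap F L).injective
  apply hinj
  rw [map_zero, Polynomial.hom_eval₂, ← Polynomial.eval_map, PhiAt_map]
  exact h

variable (K : Type*) [Field K] [CharZero K] [IsAlgClosed K] {q : ℕ}

/-- **`[K(j, j_q) : K(j j_q)] = 2 (q + 1)`** over an algebraically closed field. -/
theorem relfinrank_x_full_prime_algClosed (hq : q.Prime) :
    (K⟮xL K q⟯).relfinrank (modularFunctionFieldFullC K q) = 2 * (q + 1) := by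
  set F := modularFunctionFieldFullC K q with hF
  have hjmem : jqModC K ∈ F := by
    have := jd_mem_full K hq.ne_zero (one_dvd q)
    rwa [jd_one] at this
  have hjqmem : jd K q ∈ F := jd_mem_full K hq.ne_zero (dvd_refl q)
  set y : F := ⟨jqModC K, hjmem⟩ with hy_def
  set z : F := ⟨jd K q, hjqmem⟩ with hz_def
  have hy : Transcendental K y := by
    intro halg
    exact transcendental_jqModC' K ((isAlgebraic_algHom_iff F.val F.val.injective).mpr halg)
  have hfy : (K⟮((y : F) : LaurentSeries K)⟯).relfinrank F = q + 1 :=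
    relfinrank_j_full_prime K hq
  have hfz : (K⟮((z : F) : LaurentSeries K)⟯).relfinrank F = q + 1 :=
    relfinrank_jq_full_prime K hq
  haveI : FiniteDimensional K⟮y⟯ F :=
    finiteDimensional_adjoin_simple_of_relfinrank_ne_zero F y (by rw [hfy]; omega)
  obtain ⟨Φ, hΦ⟩ := exists_phiRel K q hq
  have hzy : IsIntegral (Algebra.adjoin K {y}) z :=
    isIntegral_adjoin_of_isRoot_PhiAt F hΦ.monic y z hΦ.root_jp
  have hyz : IsIntegral (Algebra.adjoin K {z}) y :=
    isIntegral_adjoin_of_isRoot_PhiAt F hΦ.monic z y hΦ.root_j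
  obtain ⟨-, -, -, -, h⟩ := finrank_mul_of_mutually_integral hy hzy hyz
  rw [finrank_adjoin_simple_eq_relfinrank, finrank_adjoin_simple_eq_relfinrank,
    finrank_adjoin_simple_eq_relfinrank, hfy, hfz] at h
  have hx : (((y * z : F)) : LaurentSeries K) = xL K q := rfl
  rw [hx] at h
  rw [h]
  ring

end Bar

/-! ### Part C: descent of the degree along a field extension `E ⊆ K` -/

section Descent

theorem isIntegral_of_relfinrank_sup_ne_zero {F Ω : Type*} [Field F] [Field Ω] [Algebra F Ω]
    (A : IntermediateField F Ω) (x : Ω) (h : A.relfinrank (A ⊔ F⟮x⟯) ≠ 0) : IsIntegral A x := by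
  rw [relfinrank_eq_finrank_of_le le_sup_left, extendScalars_sup_adjoin] at h
  haveI : FiniteDimensional A A⟮x⟯ := Module.finite_of_finrank_pos (Nat.pos_of_ne_zero h)
  have h1 : IsIntegral A (AdjoinSimple.gen A x) :=
    Algebra.IsIntegral.isIntegral (R := A) (AdjoinSimple.gen A x)
  have h2 := h1.map (A⟮x⟯.val)
  exact h2

variable {E K : Type*} [Field E] [Field K] [Algebra E K]

theorem linearIndependent_iotaL_iff' (x : LaurentSeries E) (x' : LaurentSeries K)
    (hx : iotaL E K x = x') {n : ℕ} (b : Fin n → LaurentSeries E) (b' : Fin n → LaurentSeries K)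
    (hb : ∀ i, iotaL E K (b i) = b' i) :
    LinearIndependent K⟮x'⟯ b' ↔ LinearIndependent E⟮x⟯ b := by
  subst hx
  obtain rfl : b' = fun i => iotaL E K (b i) := funext fun i => (hb i).symm
  exact linearIndependent_iotaL_iff x b

theorem iotaL_jqModC : iotaL E K (jqModC E) = jqModC K := coeffMap_jqModC _

theorem iotaL_jd {q : ℕ} (hq : q ≠ 0) : iotaL E K (jd E q) = jd K q := by
  haveI : NeZero q := ⟨hq⟩
  rw [jd_eq, jd_eq, iotaL, coeffMap_qExpand, coeffMap_jqModC]

theorem iotaL_xL {q : ℕ} (hq : q ≠ 0) : iotaL E K (xL E q) = xL K q := by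
  rw [xL, map_mul, iotaL_jqModC, iotaL_jd hq]
  rfl

variable [CharZero E] [CharZero K]

/-- **Descent**: `[E(j,j_q) : E(x)] = [K(j,j_q) : K(x)]` for `E ⊆ K`. -/
theorem relfinrank_x_full_prime_descent {q : ℕ} (hq : q.Prime) {D : ℕ} (hD : D ≠ 0)
    (hK : (K⟮xL K q⟯).relfinrank (modularFunctionFieldFullC K q) = D) :
    (E⟮xL E q⟯).relfinrank (modularFunctionFieldFullC E q) = D := by
  -- the `K`-side
  rw [← adjoin_x_sup_adjoin_j K hq] at hK
  have hintK : IsIntegral K⟮xL K q⟯ (jqModC K) :=
    isIntegral_of_relfinrank_sup_ne_zero _ _ (by rw [hK]; exact hD)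
  have hdegK : (minpoly K⟮xL K q⟯ (jqModC K)).natDegree = D := by
    rw [← relfinrank_sup_adjoin _ _ hintK, hK]
  have hQ : LinearIndependent K⟮xL K q⟯ (fun i : Fin D => jqModC K ^ (i : ℕ)) :=
    linearIndependent_pow_of_le (le_of_eq hdegK.symm)
  have hQ' : ¬ LinearIndependent K⟮xL K q⟯ (fun i : Fin (D + 1) => jqModC K ^ (i : ℕ)) := by
    intro h
    have := le_natDegree_of_linearIndependent_pow hintK h
    omega
  -- transfer
  have hP : LinearIndependent E⟮xL E q⟯ (fun i : Fin D => jqModC E ^ (i : ℕ)) :=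
    (linearIndependent_iotaL_iff' (xL E q) (xL K q) (iotaL_xL hq.ne_zero) _ _
      (fun i => by rw [map_pow, iotaL_jqModC])).mp hQ
  have hP' : ¬ LinearIndependent E⟮xL E q⟯ (fun i : Fin (D + 1) => jqModC E ^ (i : ℕ)) :=
    fun h => hQ' ((linearIndependent_iotaL_iff' (xL E q) (xL K q) (iotaL_xL hq.ne_zero) _ _
      (fun i => by rw [map_pow, iotaL_jqModC])).mpr h)
  -- the `E`-side
  have hintE : IsIntegral E⟮xL E q⟯ (jqModC E) := isIntegral_of_not_linearIndependent_pow hP'
  have hdegE : (minpoly E⟮xL E q⟯ (jqModC E)).natDegree = D := by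
    apply le_antisymm
    · by_contra hlt
      rw [not_le] at hlt
      exact hP' (linearIndependent_pow_of_le hlt)
    · exact le_natDegree_of_linearIndependent_pow hintE hP
  rw [← adjoin_x_sup_adjoin_j E hq, relfinrank_sup_adjoin _ _ hintE, hdegE]

end Descent

end Fermat.Agent.A2.Mod.H398

end
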