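import Fermat.Agent.A2.Mod.Spec
import Fermat.Agent.A2.Mod.H398.L8Core

/-!
# A2 / MOD leaf **L8 Deg** (helper398)

`theorem deg : DegStatement E M q` — for `q` prime, `q ∤ M`, `x = j · j_q`:
`x` is transcendental over `E`, `[F_{Mq} : E(x)] = 2 (q+1) ψ(M)`, and `E` is algebraically closed
in `F_{Mq}`.

Proof: tower `E(x) ⊆ E(j, j_q) ⊆ F_{Mq}`; `[F_{Mq} : E(j,j_q)] = ψ(M)` (S28 H988);
`[E(j,j_q) : E(x)] = [ℚ̄(j,j_q) : ℚ̄(x)]` (linear disjointness inside Laurent series, `LinDisj`)
`= [ℚ̄(j,j_q) : ℚ̄(j)] + [ℚ̄(j,j_q) : ℚ̄(j_q)] = 2 (q+1)` (degree of the pole divisor of `x`,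
`PoleSum`; `j`, `j_q` are mutually integral by the modular equation, so they have the same poles).
-/

set_option autoImplicit false
set_option linter.style.haveILetI false
set_option linter.unusedSectionVars false
set_option synthInstance.maxHeartbeats 400000
set_option maxHeartbeats 1600000

noncomputable section

namespace Fermat.Agent.A2.Mod.H398

open ModularCurve HahnSeries Polynomial IntermediateField
open Fermat.Agent.S28 Fermat.Agent.S28.H988 Fermat.Agent.S37.H988

section Final

variable (E : IntermediateField ℚ Qb) (M q : ℕ) [NeZero M] [NeZero q]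

theorem coeffEmb_qExpand_jq (d : ℕ) [NeZero d] : coeffEmb E (qExpand ℚ d jq) = jd E d := by
  rw [coeffEmb, ← jqModC_rat, coeffMap_qExpand, coeffMap_jqModC, ← jd_eq]

theorem coe_xE : ((xE E M q : FE E (M * q)) : LaurentSeries E) = xL E q := by
  show coeffEmb E (qExpand ℚ 1 jq) * coeffEmb E (qExpand ℚ q jq) = xL E q
  rw [coeffEmb_qExpand_jq, coeffEmb_qExpand_jq, jd_one]
  rfl

theorem relfinrank_x_full (hq : q.Prime) (hqM : ¬ q ∣ M) :
    (E⟮xL E q⟯).relfinrank (modularFunctionFieldFullC E (M * q)) =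
      2 * ((q + 1) * dedekindPsi M) := by
  have hM : M ≠ 0 := NeZero.ne M
  have hMq : M * q ≠ 0 := Nat.mul_ne_zero hM hq.ne_zero
  have h1 : (E⟮xL E q⟯).relfinrank (modularFunctionFieldFullC E q) = 2 * (q + 1) :=
    relfinrank_x_full_prime_descent (E := E) (K := Qb) hq (by omega)
      (relfinrank_x_full_prime_algClosed Qb hq)
  have h2 := relfinrank_full_prime_full E hq hM hqM
  have i1 : E⟮xL E q⟯ ≤ modularFunctionFieldFullC E q := by
    rw [← adjoin_x_sup_adjoin_j E hq]
    exact le_sup_left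
  have i2 : modularFunctionFieldFullC E q ≤ modularFunctionFieldFullC E (M * q) :=
    full_mono E hMq (Dvd.intro_left M rfl)
  rw [← relfinrank_mul_relfinrank i1 i2, h1, h2]
  ring

/-- **Leaf L8.** -/
theorem deg : DegStatement E M q := by
  intro hq hqM
  refine ⟨?_, ?_, ?_⟩
  · intro halg
    have h1 : IsAlgebraic E ((xE E M q : FE E (M * q)) : LaurentSeries E) :=
      (isAlgebraic_algHom_iff (FE E (M * q)).val (FE E (M * q)).val.injective).mpr halg
    rw [coe_xE] at h1
    exact transcendental_xL E hq.ne_zero h1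
  · rw [finrank_adjoin_simple_eq_relfinrank, coe_xE]
    have := relfinrank_x_full E M q hq hqM
    rw [← laurentBaseChange_full_eq_fullC] at this
    exact this
  · intro f hf
    have h1 : IsAlgebraic E ((f : FE E (M * q)) : LaurentSeries E) :=
      (isAlgebraic_algHom_iff (FE E (M * q)).val (FE E (M * q)).val.injective).mpr hf
    obtain ⟨c, hc⟩ := laurent_mem_range_of_isAlgebraic h1
    exact ⟨c, Subtype.ext hc⟩

end Final

end Fermat.Agent.A2.Mod.H398

end
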