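import Mathlib

/-!
# A2 / MOD leaf L8 (helper398) — constants of a Laurent series field

For ANY field `k`: `k` is algebraically closed in `k((t))`, and a Laurent series of negative order
is transcendental over `k`.  (Mathlib only.)
-/

set_option autoImplicit false

noncomputable section

namespace Fermat.Agent.A2.Mod.H398

open Polynomial

variable {k : Type*} [Field k]

/-- An element of `k((t))` integral over `k` is a power series. -/
theorem algebraMap_comp_powerSeries :
    (algebraMap (PowerSeries k) (LaurentSeries k)).comp (algebraMap k (PowerSeries k)) =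
      algebraMap k (LaurentSeries k) := by
  refine RingHom.ext fun c => ?_
  rw [RingHom.comp_apply, LaurentSeries.coe_algebraMap]
  exact (HahnSeries.algebraMap_apply' (Γ := ℤ) (R := k) (S := k) c).symm

theorem exists_powerSeries_of_isIntegral {f : LaurentSeries k} (hf : IsIntegral k f) :
    ∃ g : PowerSeries k, (g : LaurentSeries k) = f := by
  obtain ⟨p, hp, hpf⟩ := hf
  have h1 : IsIntegral (PowerSeries k) f :=
    ⟨p.map (algebraMap k (PowerSeries k)), hp.map _, by
      rw [Polynomial.eval₂_map, algebraMap_comp_powerSeries]; exact hpf⟩
  exact IsIntegrallyClosed.isIntegral_iff.mp h1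

/-- **`k` is algebraically closed in `k((t))`.** -/
theorem laurent_mem_range_of_isAlgebraic {f : LaurentSeries k} (hf : IsAlgebraic k f) :
    f ∈ (algebraMap k (LaurentSeries k)).range := by
  obtain ⟨g, hg⟩ := exists_powerSeries_of_isIntegral hf.isIntegral
  set c : k := PowerSeries.constantCoeff g with hc
  have hcf : algebraMap k (LaurentSeries k) c =
      ((PowerSeries.C c : PowerSeries k) : LaurentSeries k) := by
    rw [← algebraMap_comp_powerSeries, RingHom.comp_apply, LaurentSeries.coe_algebraMap]
    rfl
  by_cases h0 : f - algebraMap k (LaurentSeries k) c = 0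
  · exact ⟨c, (sub_eq_zero.mp h0).symm⟩
  · exfalso
    have halg : IsAlgebraic k (f - algebraMap k (LaurentSeries k) c) :=
      hf.sub (isAlgebraic_algebraMap c)
    have halg' : IsAlgebraic k (f - algebraMap k (LaurentSeries k) c)⁻¹ := halg.inv
    obtain ⟨u, hu⟩ := exists_powerSeries_of_isIntegral halg'.isIntegral
    have hmul : ((g - PowerSeries.C c) * u : PowerSeries k) = 1 := by
      have hinj : Function.Injective
          (HahnSeries.ofPowerSeries ℤ k : PowerSeries k → LaurentSeries k) :=
        HahnSeries.ofPowerSeries_injective
      apply hinj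
      rw [map_mul, map_one, map_sub]
      show ((g : LaurentSeries k) - ((PowerSeries.C c : PowerSeries k) : LaurentSeries k)) *
        (u : LaurentSeries k) = 1
      rw [hg, hu, ← hcf]
      exact mul_inv_cancel₀ h0
    have h1 := congrArg PowerSeries.constantCoeff hmul
    rw [map_mul, map_sub, PowerSeries.constantCoeff_C, map_one, ← hc, sub_self, zero_mul] at h1
    exact zero_ne_one h1

/-- A Laurent series of nonzero order is transcendental over the constants. -/
theorem laurent_transcendental_of_order_ne_zero {f : LaurentSeries k} (hf : f.order ≠ 0) :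
    Transcendental k f := by
  intro halg
  obtain ⟨c, hc⟩ := laurent_mem_range_of_isAlgebraic halg
  apply hf
  rw [← hc]
  show (algebraMap k (LaurentSeries k) c).order = 0
  have h1 : algebraMap k (LaurentSeries k) c = HahnSeries.single 0 c := by
    have h2 : algebraMap k (PowerSeries k) c = PowerSeries.C c := by simp
    rw [HahnSeries.algebraMap_apply', h2, HahnSeries.ofPowerSeries_C]
    rfl
  rw [h1]
  by_cases h : c = 0
  · subst h
    simp
  · exact HahnSeries.order_single h

end Fermat.Agent.A2.Mod.H398

end
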